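import Fermat.Agent.Lib.CFT.HerbrandCyclic

/-!
# Herbrand quotient: multiplicative version

Transfer of the Herbrand calculus to commutative groups written multiplicatively
(unit groups, idele groups, ...), via `Additive`.
-/

namespace Fermat.Agent.Lib.CFT.Herbrand

section Basic

variable {M : Type*} [CommGroup M]

/-- The index `[ker f : im g]` for endomorphisms of a multiplicative commutative group. -/
noncomputable def hIndexMul (f g : M →* M) : ℕ := g.range.relIndex f.ker

/-- The multiplicative Herbrand quotient `[ker f : im g] / [ker g : im f]`. -/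
noncomputable def herbrandMul (f g : M →* M) : ℚ := (hIndexMul f g : ℚ) / (hIndexMul g f : ℚ)

/-- Both indices are finite. -/
def IsFinMul (f g : M →* M) : Prop := hIndexMul f g ≠ 0 ∧ hIndexMul g f ≠ 0

theorem range_toAdditive (g : M →* M) :
    (MonoidHom.toAdditive g).range = Subgroup.toAddSubgroup g.range := by
  ext x
  constructor
  · rintro ⟨y, rfl⟩
    exact ⟨y.toMul, rfl⟩
  · rintro ⟨y, hy⟩
    exact ⟨Additive.ofMul y, hy⟩

theorem ker_toAdditive (f : M →* M) :
    (MonoidHom.toAdditive f).ker = Subgroup.toAddSubgroup f.ker := by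
  ext x
  rfl

theorem hIndex_toAdditive (f g : M →* M) :
    hIndex (MonoidHom.toAdditive f) (MonoidHom.toAdditive g) = hIndexMul f g := by
  unfold hIndex hIndexMul
  rw [range_toAdditive, ker_toAdditive, Subgroup.relIndex_toAddSubgroup]

theorem herbrand_toAdditive (f g : M →* M) :
    herbrand (MonoidHom.toAdditive f) (MonoidHom.toAdditive g) = herbrandMul f g := by
  unfold herbrand herbrandMul
  rw [hIndex_toAdditive, hIndex_toAdditive]

theorem isFin_toAdditive (f g : M →* M) :
    IsFin (MonoidHom.toAdditive f) (MonoidHom.toAdditive g) ↔ IsFinMul f g := by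
  unfold IsFin IsFinMul
  rw [hIndex_toAdditive, hIndex_toAdditive]

theorem herbrandMul_eq_one_of_finite [Finite M] (f g : M →* M)
    (hfg : ∀ x, f (g x) = 1) (hgf : ∀ x, g (f x) = 1) : herbrandMul f g = 1 := by
  rw [← herbrand_toAdditive]
  have : Finite (Additive M) := inferInstanceAs (Finite M)
  exact herbrand_eq_one_of_finite _ _ (fun x => hfg x.toMul) (fun x => hgf x.toMul)

theorem isFinMul_of_finite [Finite M] (f g : M →* M)
    (hfg : ∀ x, f (g x) = 1) (hgf : ∀ x, g (f x) = 1) : IsFinMul f g := by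
  rw [← isFin_toAdditive]
  have : Finite (Additive M) := inferInstanceAs (Finite M)
  exact isFin_of_finite _ _ (fun x => hfg x.toMul) (fun x => hgf x.toMul)

end Basic

section Exact

variable {M₁ M₂ M₃ : Type*} [CommGroup M₁] [CommGroup M₂] [CommGroup M₃]
variable {f₁ g₁ : M₁ →* M₁} {f₂ g₂ : M₂ →* M₂} {f₃ g₃ : M₃ →* M₃}

/-- Multiplicativity of the multiplicative Herbrand quotient on a short exact sequence
`1 → M₁ → M₂ → M₃ → 1`. -/
theorem herbrandMul_of_exact {i : M₁ →* M₂} {p : M₂ →* M₃}
    (hi : Function.Injective i) (hp : Function.Surjective p) (hex : i.range = p.ker)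
    (hfg : ∀ x, f₂ (g₂ x) = 1) (hgf : ∀ x, g₂ (f₂ x) = 1)
    (hfi : ∀ a, i (f₁ a) = f₂ (i a)) (hgi : ∀ a, i (g₁ a) = g₂ (i a))
    (hfp : ∀ b, p (f₂ b) = f₃ (p b)) (hgp : ∀ b, p (g₂ b) = g₃ (p b)) :
    (IsFinMul f₁ g₁ ∧ IsFinMul f₃ g₃ → IsFinMul f₂ g₂) ∧
    (IsFinMul f₁ g₁ ∧ IsFinMul f₂ g₂ → IsFinMul f₃ g₃) ∧
    (IsFinMul f₂ g₂ ∧ IsFinMul f₃ g₃ → IsFinMul f₁ g₁) ∧
    (IsFinMul f₁ g₁ → IsFinMul f₃ g₃ →
      herbrandMul f₂ g₂ = herbrandMul f₁ g₁ * herbrandMul f₃ g₃) := by
  have hex' : (MonoidHom.toAdditive i).range = (MonoidHom.toAdditive p).ker := by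
    ext x
    constructor
    · rintro ⟨y, rfl⟩
      have : i y.toMul ∈ p.ker := hex ▸ ⟨y.toMul, rfl⟩
      exact this
    · intro hx
      have : x.toMul ∈ i.range := hex ▸ (show x.toMul ∈ p.ker from hx)
      obtain ⟨y, hy⟩ := this
      exact ⟨Additive.ofMul y, hy⟩
  have key := herbrand_of_exact (fA := MonoidHom.toAdditive f₁) (gA := MonoidHom.toAdditive g₁)
    (fB := MonoidHom.toAdditive f₂) (gB := MonoidHom.toAdditive g₂)
    (fC := MonoidHom.toAdditive f₃) (gC := MonoidHom.toAdditive g₃)
    (i := MonoidHom.toAdditive i) (p := MonoidHom.toAdditive p)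
    (fun a b h => hi h) (fun c => by obtain ⟨b, hb⟩ := hp c.toMul; exact ⟨Additive.ofMul b, hb⟩)
    hex' (fun x => hfg x.toMul) (fun x => hgf x.toMul)
    (fun a => hfi a.toMul) (fun a => hgi a.toMul) (fun b => hfp b.toMul) (fun b => hgp b.toMul)
  simp only [isFin_toAdditive, herbrand_toAdditive] at key
  exact key

/-- A compatible homomorphism with finite kernel and cokernel preserves the multiplicative
Herbrand quotient. -/
theorem herbrandMul_eq_of_finite_ker_coker (φ : M₁ →* M₂)
    (hfg₁ : ∀ x, f₁ (g₁ x) = 1) (hgf₁ : ∀ x, g₁ (f₁ x) = 1)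
    (hfg₂ : ∀ x, f₂ (g₂ x) = 1) (hgf₂ : ∀ x, g₂ (f₂ x) = 1)
    (hf : ∀ a, φ (f₁ a) = f₂ (φ a)) (hg : ∀ a, φ (g₁ a) = g₂ (φ a))
    [Finite φ.ker] (hcoker : φ.range.index ≠ 0) :
    (IsFinMul f₁ g₁ ↔ IsFinMul f₂ g₂) ∧ herbrandMul f₁ g₁ = herbrandMul f₂ g₂ := by
  have : Finite (MonoidHom.toAdditive φ).ker := by
    have : Finite φ.ker := inferInstance
    exact this
  have hc : (MonoidHom.toAdditive φ).range.index ≠ 0 := by
    have e : (MonoidHom.toAdditive φ).range = Subgroup.toAddSubgroup φ.range := by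
      ext x
      constructor
      · rintro ⟨y, rfl⟩
        exact ⟨y.toMul, rfl⟩
      · rintro ⟨y, hy⟩
        exact ⟨Additive.ofMul y, hy⟩
    rw [e, Subgroup.index_toAddSubgroup]
    exact hcoker
  have key := herbrand_eq_of_finite_ker_coker
    (fA := MonoidHom.toAdditive f₁) (gA := MonoidHom.toAdditive g₁)
    (fB := MonoidHom.toAdditive f₂) (gB := MonoidHom.toAdditive g₂) (MonoidHom.toAdditive φ)
    (fun x => hfg₁ x.toMul) (fun x => hgf₁ x.toMul) (fun x => hfg₂ x.toMul)
    (fun x => hgf₂ x.toMul) (fun a => hf a.toMul) (fun a => hg a.toMul) hc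
  simp only [isFin_toAdditive, herbrand_toAdditive] at key
  exact key

end Exact

section PowQuotMul

variable {M : Type*} [CommGroup M]

/-- `[M : Mⁿ] / |M[n]|` for a multiplicative commutative group. -/
noncomputable def powQuotMul (M : Type*) [CommGroup M] (n : ℕ) : ℚ :=
  herbrandMul (1 : M →* M) (powMonoidHom n)

/-- `[M : Mⁿ]` and `|M[n]|` are finite. -/
def PowFinMul (M : Type*) [CommGroup M] (n : ℕ) : Prop :=
  IsFinMul (1 : M →* M) (powMonoidHom n)

theorem powQuotMul_eq (n : ℕ) :
    powQuotMul M n = ((powMonoidHom n : M →* M).range.index : ℚ) /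
      (Nat.card (powMonoidHom n : M →* M).ker : ℚ) := by
  unfold powQuotMul herbrandMul hIndexMul
  rw [MonoidHom.ker_one, Subgroup.relIndex_top_right, MonoidHom.range_one,
    Subgroup.relIndex_bot_left]

theorem powFinMul_iff (n : ℕ) :
    PowFinMul M n ↔ (powMonoidHom n : M →* M).range.index ≠ 0 ∧
      Nat.card (powMonoidHom n : M →* M).ker ≠ 0 := by
  unfold PowFinMul IsFinMul hIndexMul
  rw [MonoidHom.ker_one, Subgroup.relIndex_top_right, MonoidHom.range_one,
    Subgroup.relIndex_bot_left]

theorem powQuotMul_eq_powQuot (n : ℕ) : powQuotMul M n = powQuot (Additive M) n := by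
  unfold powQuotMul powQuot
  rw [← herbrand_toAdditive]
  rfl

theorem powFinMul_iff_powFin (n : ℕ) : PowFinMul M n ↔ PowFin (Additive M) n := by
  unfold PowFinMul PowFin
  rw [← isFin_toAdditive]
  rfl

end PowQuotMul

section ActionMul

variable (G : Type*) [Group G] [Fintype G] (M : Type*) [CommGroup M] [MulDistribMulAction G M]

/-- The endomorphism `m ↦ (s • m) / m`. -/
def subOneMul (s : G) : M →* M := MulDistribMulAction.toMonoidHom M s / MonoidHom.id M

/-- The norm endomorphism `m ↦ ∏ x : G, x • m`. -/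
def normMul : M →* M := ∏ x : G, MulDistribMulAction.toMonoidHom M x

variable {G M}

omit [Fintype G] in
@[simp] theorem subOneMul_apply (s : G) (m : M) : subOneMul G M s m = s • m / m := rfl

@[simp] theorem normMul_apply (m : M) : normMul G M m = ∏ x : G, x • m := by
  unfold normMul
  rw [MonoidHom.finsetProd_apply]
  rfl

theorem smul_normMul (s : G) (m : M) : s • normMul G M m = normMul G M m := by
  rw [normMul_apply, Finset.smul_prod']
  simp_rw [smul_smul]
  exact Fintype.prod_bijective (fun x => s * x) (Group.mulLeft_bijective s) _ _ (fun _ => rfl)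

theorem normMul_smul (s : G) (m : M) : normMul G M (s • m) = normMul G M m := by
  rw [normMul_apply, normMul_apply]
  simp_rw [smul_smul]
  exact Fintype.prod_bijective (fun x => x * s) (Group.mulRight_bijective s) _ _ (fun _ => rfl)

theorem subOneMul_normMul (s : G) (m : M) : subOneMul G M s (normMul G M m) = 1 := by
  rw [subOneMul_apply, smul_normMul, div_self']

theorem normMul_subOneMul (s : G) (m : M) : normMul G M (subOneMul G M s m) = 1 := by
  rw [subOneMul_apply, map_div, normMul_smul, div_self']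

variable (G M)

/-- The Herbrand quotient of a multiplicative `G`-module, with respect to `s : G`. -/
noncomputable def herbrandCycMul (s : G) : ℚ := herbrandMul (subOneMul G M s) (normMul G M)

/-- Finiteness of both cohomology groups. -/
def CycFinMul (s : G) : Prop := IsFinMul (subOneMul G M s) (normMul G M)

variable {G M}

/-- For a trivial action, the Herbrand quotient is `[M : Mⁿ] / |M[n]|` with `n = |G|`. -/
theorem herbrandCycMul_of_trivial (htriv : ∀ (x : G) (m : M), x • m = m) (s : G) :
    herbrandCycMul G M s = powQuotMul M (Fintype.card G) ∧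
      (CycFinMul G M s ↔ PowFinMul M (Fintype.card G)) := by
  have h1 : subOneMul G M s = 1 := by
    ext m
    simp [htriv]
  have h2 : normMul G M = powMonoidHom (Fintype.card G) := by
    ext m
    simp [htriv]
  unfold herbrandCycMul CycFinMul powQuotMul PowFinMul
  rw [h1, h2]
  exact ⟨rfl, Iff.rfl⟩

section ExactMul

variable {M₂ M₃ : Type*} [CommGroup M₂] [CommGroup M₃] [MulDistribMulAction G M₂]
  [MulDistribMulAction G M₃]

/-- Multiplicativity of the Herbrand quotient on a short exact sequence of multiplicative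
`G`-modules. -/
theorem herbrandCycMul_of_exact (s : G) {i : M →* M₂} {p : M₂ →* M₃}
    (hi : Function.Injective i) (hp : Function.Surjective p) (hex : i.range = p.ker)
    (hiG : ∀ (x : G) (a : M), i (x • a) = x • i a)
    (hpG : ∀ (x : G) (b : M₂), p (x • b) = x • p b) :
    (CycFinMul G M s ∧ CycFinMul G M₃ s → CycFinMul G M₂ s) ∧
    (CycFinMul G M s ∧ CycFinMul G M₂ s → CycFinMul G M₃ s) ∧
    (CycFinMul G M₂ s ∧ CycFinMul G M₃ s → CycFinMul G M s) ∧
    (CycFinMul G M s → CycFinMul G M₃ s →
      herbrandCycMul G M₂ s = herbrandCycMul G M s * herbrandCycMul G M₃ s) := by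
  refine herbrandMul_of_exact hi hp hex (subOneMul_normMul s) (normMul_subOneMul s) ?_ ?_ ?_ ?_
  · intro a; simp [hiG]
  · intro a; simp [hiG]
  · intro b; simp [hpG]
  · intro b; simp [hpG]

end ExactMul

end ActionMul

end Fermat.Agent.Lib.CFT.Herbrand
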