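import Fermat.Agent.Lib.CFT.HerbrandCyclic

/-!
# Herbrand quotient and Mathlib's group cohomology of finite cyclic groups

For `A : Rep k G` with `G` finite cyclic generated by `g`, the cardinalities of the cohomology
groups `Hⁱ(G, A)` (`i > 0`) are the Herbrand indices of the pair `(ρ g - 1, N)` of additive
endomorphisms of the underlying group of `A`.
-/

namespace Fermat.Agent.Lib.CFT.Herbrand

open CategoryTheory Rep.FiniteCyclicGroup

universe u

variable {k G : Type u} [CommRing k] [CommGroup G] [Fintype G] (A : Rep.{u} k G) (g : G)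

/-- The additive endomorphism `a ↦ ρ(g) a - a` of the underlying group of `A`. -/
def repSub : A.V →+ A.V :=
  AddMonoidHom.mk' (fun a => A.ρ g a - a) (fun a b => by rw [map_add]; abel)

/-- The additive norm endomorphism `a ↦ ∑ x, ρ(x) a` of the underlying group of `A`. -/
def repNorm : A.V →+ A.V :=
  AddMonoidHom.mk' (fun a => ∑ x : G, A.ρ x a) (fun a b => by
    simp_rw [map_add]
    rw [Finset.sum_add_distrib])

omit [Fintype G] in
@[simp] theorem repSub_apply (a : A.V) : repSub A g a = A.ρ g a - a := rfl

@[simp] theorem repNorm_apply (a : A.V) : repNorm A a = ∑ x : G, A.ρ x a := rfl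

theorem repSub_repNorm (a : A.V) : repSub A g (repNorm A a) = 0 := by
  rw [repSub_apply, repNorm_apply, map_sum, sub_eq_zero]
  have : ∀ x : G, A.ρ g (A.ρ x a) = A.ρ (g * x) a := fun x => by rw [map_mul]; rfl
  simp_rw [this]
  exact Fintype.sum_bijective (fun x => g * x) (Group.mulLeft_bijective g) _ _ (fun _ => rfl)

theorem repNorm_repSub (a : A.V) : repNorm A (repSub A g a) = 0 := by
  rw [repSub_apply, repNorm_apply]
  simp_rw [map_sub]
  rw [Finset.sum_sub_distrib, sub_eq_zero]
  have : ∀ x : G, A.ρ x (A.ρ g a) = A.ρ (x * g) a := fun x => by rw [map_mul]; rfl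
  simp_rw [this]
  exact Fintype.sum_bijective (fun x => x * g) (Group.mulRight_bijective g) _ _ (fun _ => rfl)

omit [Fintype G] in
theorem mem_ker_repSub_iff (x : A.V) :
    x ∈ (repSub A g).ker ↔ x ∈ LinearMap.ker (Rep.applyAsHom A g - 𝟙 A).hom.toLinearMap := by
  simp [Rep.sub_hom, Rep.applyAsHom, AddMonoidHom.mem_ker]

omit [Fintype G] in
theorem mem_range_repSub_iff (x : A.V) :
    x ∈ (repSub A g).range ↔
      x ∈ LinearMap.range (Rep.applyAsHom A g - 𝟙 A).hom.toLinearMap := by
  simp [Rep.sub_hom, Rep.applyAsHom, AddMonoidHom.mem_range]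

theorem mem_ker_repNorm_iff (x : A.V) :
    x ∈ (repNorm A).ker ↔ x ∈ LinearMap.ker A.norm.hom.toLinearMap := by
  simp [Rep.norm, Representation.norm, AddMonoidHom.mem_ker]

theorem mem_range_repNorm_iff (x : A.V) :
    x ∈ (repNorm A).range ↔ x ∈ LinearMap.range A.norm.hom.toLinearMap := by
  simp [Rep.norm, Representation.norm, AddMonoidHom.mem_range]

variable (hg : ∀ x, x ∈ Subgroup.zpowers g)

theorem groupCohomologyπEven_surjective (i : ℕ) [NeZero i] (hi : Even i) :
    Function.Surjective (groupCohomologyπEven A g hg i hi) := by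
  rw [← ModuleCat.epi_iff_surjective]
  unfold groupCohomologyπEven
  have h0 : Epi ((normHomCompSub A g).moduleCatCyclesIso.inv) := inferInstance
  have h2 : Epi ((normHomCompSub A g).homologyπ ≫ (groupCohomologyIsoEven A g hg i hi).inv) :=
    epi_comp _ _
  exact @epi_comp _ _ _ _ _ _ h0 _ h2

theorem groupCohomologyπOdd_surjective (i : ℕ) (hi : Odd i) :
    Function.Surjective (groupCohomologyπOdd A g hg i hi) := by
  rw [← ModuleCat.epi_iff_surjective]
  unfold groupCohomologyπOdd
  have h0 : Epi ((subCompNormHom A g).moduleCatCyclesIso.inv) := inferInstance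
  have h2 : Epi ((subCompNormHom A g).homologyπ ≫ (groupCohomologyIsoOdd A g hg i hi).inv) :=
    epi_comp _ _
  exact @epi_comp _ _ _ _ _ _ h0 _ h2

/-- Abstract counting lemma: a surjective additive map out of a subgroup `K` whose kernel is
`R ∩ K` has image of cardinality `[K : R ∩ K]`. -/
theorem card_eq_relIndex_of_surjective {V H : Type*} [AddCommGroup V] [AddCommGroup H]
    (K R : AddSubgroup V) (π : K →+ H) (hπ : Function.Surjective π)
    (hker : ∀ x : K, π x = 0 ↔ (x : V) ∈ R) : Nat.card H = R.relIndex K := by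
  have e := QuotientAddGroup.quotientKerEquivOfSurjective π hπ
  rw [← Nat.card_congr e.toEquiv]
  have : π.ker = R.addSubgroupOf K := by
    ext x
    rw [AddMonoidHom.mem_ker, hker, AddSubgroup.mem_addSubgroupOf]
  rw [this]
  rfl

include hg in
/-- `|Hⁱ(G, A)| = [ker (ρ g - 1) : im N]` for even `i > 0`. -/
theorem card_groupCohomology_even (i : ℕ) [NeZero i] (hi : Even i) :
    Nat.card (groupCohomology A i) = hIndex (repSub A g) (repNorm A) := by
  unfold hIndex
  have hK : (repSub A g).ker =
      (LinearMap.ker (Rep.applyAsHom A g - 𝟙 A).hom.toLinearMap).toAddSubgroup := by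
    ext x
    exact mem_ker_repSub_iff A g x
  rw [hK]
  refine card_eq_relIndex_of_surjective _ _
    ((groupCohomologyπEven A g hg i hi).hom : _ →ₗ[k] _).toAddMonoidHom
    (groupCohomologyπEven_surjective A g hg i hi) ?_
  intro x
  have h1 := groupCohomologyπEven_eq_zero_iff A g hg i hi x
  rw [mem_range_repNorm_iff]
  exact h1

include hg in
/-- `|Hⁱ(G, A)| = [ker N : im (ρ g - 1)]` for odd `i`. -/
theorem card_groupCohomology_odd (i : ℕ) (hi : Odd i) :
    Nat.card (groupCohomology A i) = hIndex (repNorm A) (repSub A g) := by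
  unfold hIndex
  have hK : (repNorm A).ker = (LinearMap.ker A.norm.hom.toLinearMap).toAddSubgroup := by
    ext x
    exact mem_ker_repNorm_iff A x
  rw [hK]
  refine card_eq_relIndex_of_surjective _ _
    ((groupCohomologyπOdd A g hg i hi).hom : _ →ₗ[k] _).toAddMonoidHom
    (groupCohomologyπOdd_surjective A g hg i hi) ?_
  intro x
  have h1 := groupCohomologyπOdd_eq_zero_iff A g hg i hi x
  rw [mem_range_repSub_iff]
  exact h1

include hg in
/-- The Herbrand quotient is `|H²(G,A)| / |H¹(G,A)|`. -/
theorem herbrand_eq_card_H2_div_card_H1 :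
    herbrand (repSub A g) (repNorm A) =
      (Nat.card (groupCohomology A 2) : ℚ) / (Nat.card (groupCohomology A 1) : ℚ) := by
  unfold herbrand
  rw [card_groupCohomology_even A g hg 2 (by decide),
    card_groupCohomology_odd A g hg 1 (by decide)]

end Fermat.Agent.Lib.CFT.Herbrand
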