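import Fermat.Agent.Lib.CFT.HerbrandMul

/-!
# Hilbert 90 in Herbrand form

For a finite cyclic Galois extension `L/K` with generator `g` of the Galois group, the index
`[ker N : im (g - 1)]` on `Lˣ` is `1`, and `ker (g - 1) = Kˣ`.
-/

namespace Fermat.Agent.Lib.CFT.Herbrand

variable {K L : Type} [Field K] [Field L] [Algebra K L] [FiniteDimensional K L] [IsGalois K L]

theorem coe_normMul_units (u : Lˣ) :
    ((normMul Gal(L/K) Lˣ u : Lˣ) : L) = algebraMap K L (Algebra.norm K (u : L)) := by
  rw [normMul_apply, Algebra.norm_eq_prod_automorphisms, Units.coe_prod]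
  rfl

/-- Hilbert 90: `[ker N : im (g - 1)] = 1` on `Lˣ` for a cyclic extension. -/
theorem hIndexMul_normMul_subOneMul_units [IsCyclic Gal(L/K)] {g : Gal(L/K)}
    (hg : ∀ x, x ∈ Subgroup.zpowers g) :
    hIndexMul (normMul Gal(L/K) Lˣ) (subOneMul Gal(L/K) Lˣ g) = 1 := by
  unfold hIndexMul
  rw [Subgroup.relIndex_eq_one]
  intro u hu
  have hu1 : normMul Gal(L/K) Lˣ u = 1 := hu
  have hnorm : Algebra.norm K (u : L) = 1 := by
    have h := coe_normMul_units (K := K) u
    rw [hu1, Units.val_one] at h
    exact (algebraMap K L).injective (by rw [← h, map_one])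
  obtain ⟨y, hy⟩ := groupCohomology.exists_div_of_norm_eq_one hg hnorm
  refine ⟨y⁻¹, ?_⟩
  rw [subOneMul_apply]
  apply Units.ext
  rw [← hy]
  simp only [smul_inv', Units.val_div_eq_div_val, Units.val_inv_eq_inv_val]
  have h2 : ((g • y : Lˣ) : L) = g (y : L) := rfl
  rw [h2]
  have hy0 : (y : L) ≠ 0 := y.ne_zero
  have hgy0 : g (y : L) ≠ 0 := by
    rw [← h2]; exact (g • y).ne_zero
  field_simp

/-- The norm map on units `Lˣ →* Kˣ`. -/
noncomputable def unitsNorm (K L : Type) [Field K] [Field L] [Algebra K L] : Lˣ →* Kˣ :=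
  Units.map (Algebra.norm K : L →* K)

/-- `[ker (g - 1) : im N] = [Kˣ : N_{L/K} Lˣ]` on `Lˣ`. -/
theorem hIndexMul_subOneMul_normMul_units {g : Gal(L/K)}
    (hg : ∀ x, x ∈ Subgroup.zpowers g) :
    hIndexMul (subOneMul Gal(L/K) Lˣ g) (normMul Gal(L/K) Lˣ) = (unitsNorm K L).range.index := by
  unfold hIndexMul
  let ι : Kˣ →* Lˣ := Units.map (algebraMap K L : K →* L)
  have hι : Function.Injective ι := Units.map_injective (algebraMap K L).injective
  have h1 : (normMul Gal(L/K) Lˣ).range = (unitsNorm K L).range.map ι := by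
    rw [MonoidHom.map_range]
    congr 1
    ext u
    rw [coe_normMul_units (K := K)]
    rfl
  have h2 : (subOneMul Gal(L/K) Lˣ g).ker = (⊤ : Subgroup Kˣ).map ι := by
    ext u
    constructor
    · intro hu
      have hu1 : g • u / u = 1 := hu
      have hgu : g • u = u := div_eq_one.mp hu1
      have hfix : ∀ σ : Gal(L/K), σ (u : L) = u := by
        intro σ
        obtain ⟨n, rfl⟩ := Subgroup.mem_zpowers_iff.mp (hg σ)
        have hgu' : g (u : L) = u := congrArg Units.val hgu
        have hginv : g⁻¹ (u : L) = u := by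
          conv_lhs => rw [← hgu']
          exact g.symm_apply_apply _
        induction n using Int.induction_on with
        | zero => simp
        | succ n ih =>
          rw [zpow_add_one, AlgEquiv.mul_apply, hgu', ih]
        | pred n ih =>
          rw [zpow_sub_one, AlgEquiv.mul_apply, hginv, ih]
      have hmem : (u : L) ∈ (⊥ : IntermediateField K L) := by
        rw [← IsGalois.fixedField_top (F := K) (E := L)]
        intro σ
        exact hfix σ
      obtain ⟨x, hx⟩ := IntermediateField.mem_bot.mp hmem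
      have hx0 : x ≠ 0 := by
        rintro rfl
        rw [map_zero] at hx
        exact u.ne_zero hx.symm
      refine ⟨Units.mk0 x hx0, Subgroup.mem_top _, ?_⟩
      apply Units.ext
      exact hx
    · rintro ⟨x, -, rfl⟩
      show g • ι x / ι x = 1
      rw [div_eq_one]
      apply Units.ext
      show g (algebraMap K L x) = algebraMap K L x
      exact g.commutes x
  rw [h1, h2, Subgroup.relIndex_map_map_of_injective _ _ hι, Subgroup.relIndex_top_right]

/-- For a cyclic extension `L/K` the Herbrand quotient of `Lˣ` is the norm index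
`[Kˣ : N_{L/K} Lˣ]`. -/
theorem herbrandCycMul_units [IsCyclic Gal(L/K)] {g : Gal(L/K)}
    (hg : ∀ x, x ∈ Subgroup.zpowers g) :
    herbrandCycMul Gal(L/K) Lˣ g = (unitsNorm K L).range.index := by
  unfold herbrandCycMul herbrandMul
  rw [hIndexMul_normMul_subOneMul_units hg, hIndexMul_subOneMul_normMul_units hg]
  simp

end Fermat.Agent.Lib.CFT.Herbrand
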