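import Mathlib

/-!
# Herbrand quotient (concrete version)

For an additive commutative group `B` with two endomorphisms `f g : B →+ B` such that
`f ∘ g = 0 = g ∘ f`, we put `hIndex f g = [ker f : im g]` (a natural number, `0` when infinite)
and `herbrand f g = hIndex f g / hIndex g f : ℚ`.

Main results:
* `hIndex_mul_of_stable`: the key index identity for a stable subgroup;
* `herbrand_mul_of_exact`: multiplicativity on short exact sequences (with two-out-of-three);
* `herbrand_eq_one_of_finite`: the Herbrand quotient of a finite group is `1`.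
-/

namespace Fermat.Agent.Lib.CFT.Herbrand

variable {B : Type*} [AddCommGroup B]

/-- The index `[ker f : im g]` (zero if infinite). -/
noncomputable def hIndex (f g : B →+ B) : ℕ := g.range.relIndex f.ker

/-- The Herbrand quotient `[ker f : im g] / [ker g : im f]`. -/
noncomputable def herbrand (f g : B →+ B) : ℚ := (hIndex f g : ℚ) / (hIndex g f : ℚ)

/-- Both cohomology groups are finite. -/
def IsFin (f g : B →+ B) : Prop := hIndex f g ≠ 0 ∧ hIndex g f ≠ 0

section Stable

variable (f g : B →+ B) (A : AddSubgroup B)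

/-- `[A ∩ ker f : g A]`, the `hIndex` of the restriction to a stable subgroup. -/
noncomputable def subIndex : ℕ := (A.map g).relIndex (A ⊓ f.ker)

/-- `[f⁻¹ A : im g + A]`, the `hIndex` of the quotient by a stable subgroup. -/
noncomputable def quotIndex : ℕ := (g.range ⊔ A).relIndex (A.comap f)

/-- `[A ∩ im f : f A]`, the defect measuring the connecting map. -/
noncomputable def defect : ℕ := (A.map f).relIndex (A ⊓ f.range)

variable {f g A}

theorem defect_eq : defect f A = (f.ker ⊔ A).relIndex (A.comap f) := by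
  unfold defect
  rw [inf_comm, ← AddSubgroup.map_comap_eq, ← AddSubgroup.relIndex_comap,
    AddSubgroup.comap_map_eq, sup_comm]

theorem hIndex_mul_of_stable (hfg : ∀ x, f (g x) = 0)
    (hfA : ∀ a ∈ A, f a ∈ A) (hgA : ∀ a ∈ A, g a ∈ A) :
    hIndex f g * defect f A * defect g A = subIndex f g A * quotIndex f g A := by
  have hIK : g.range ≤ f.ker := by
    rintro _ ⟨x, rfl⟩
    exact hfg x
  have hAcomap : A ≤ A.comap f := fun a ha => hfA a ha
  have hKcomap : f.ker ≤ A.comap f := fun x hx => by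
    have : f x = 0 := hx
    simp [AddSubgroup.mem_comap, this, A.zero_mem]
  have hmapg : A.map g ≤ A ⊓ g.range := by
    rintro _ ⟨a, ha, rfl⟩
    exact ⟨hgA a ha, ⟨a, rfl⟩⟩
  -- step 1
  have h1 : subIndex f g A = defect g A * (A ⊓ g.range).relIndex (A ⊓ f.ker) := by
    unfold subIndex defect
    rw [AddSubgroup.relIndex_mul_relIndex _ _ _ hmapg (inf_le_inf_left A hIK)]
  -- step 2
  have h2 : quotIndex f g A = (g.range ⊔ A).relIndex (f.ker ⊔ A) * defect f A := by
    rw [defect_eq]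
    unfold quotIndex
    rw [AddSubgroup.relIndex_mul_relIndex _ _ _ (sup_le_sup_right hIK A)
      (sup_le hKcomap hAcomap)]
  -- step 4
  have h4 : hIndex f g =
      (A ⊓ g.range).relIndex (A ⊓ f.ker) * (g.range ⊔ A).relIndex (f.ker ⊔ A) := by
    unfold hIndex
    have e1 : (A ⊓ g.range).relIndex (A ⊓ f.ker) = g.range.relIndex ((A ⊓ f.ker) ⊔ g.range) := by
      rw [AddSubgroup.relIndex_sup_right, ← AddSubgroup.inf_relIndex_right g.range]
      congr 1
      rw [inf_comm A f.ker, ← inf_assoc, inf_eq_left.mpr hIK, inf_comm]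
    have e2 : (g.range ⊔ A).relIndex (f.ker ⊔ A) = ((A ⊓ f.ker) ⊔ g.range).relIndex f.ker := by
      have : f.ker ⊔ A = f.ker ⊔ (g.range ⊔ A) := by
        rw [← sup_assoc, sup_eq_left.mpr hIK]
      rw [this, AddSubgroup.relIndex_sup_right, ← AddSubgroup.inf_relIndex_right (g.range ⊔ A)]
      congr 1
      rw [sup_comm (A ⊓ f.ker), inf_comm A f.ker, sup_inf_assoc_of_le A hIK, inf_comm]
    rw [e1, e2, AddSubgroup.relIndex_mul_relIndex _ _ _ le_sup_right (sup_le inf_le_right hIK)]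
  rw [h1, h2, h4]
  ring

theorem defect_dvd_subIndex (hgA : ∀ a ∈ A, g a ∈ A) (hfg : ∀ x, f (g x) = 0) :
    defect g A ∣ subIndex f g A := by
  have hIK : g.range ≤ f.ker := by
    rintro _ ⟨x, rfl⟩
    exact hfg x
  have hmapg : A.map g ≤ A ⊓ g.range := by
    rintro _ ⟨a, ha, rfl⟩
    exact ⟨hgA a ha, ⟨a, rfl⟩⟩
  unfold subIndex defect
  rw [← AddSubgroup.relIndex_mul_relIndex _ _ _ hmapg (inf_le_inf_left A hIK)]
  exact dvd_mul_right _ _

theorem defect_dvd_quotIndex (hfA : ∀ a ∈ A, f a ∈ A) (hfg : ∀ x, f (g x) = 0) :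
    defect f A ∣ quotIndex f g A := by
  have hIK : g.range ≤ f.ker := by
    rintro _ ⟨x, rfl⟩
    exact hfg x
  have hAcomap : A ≤ A.comap f := fun a ha => hfA a ha
  have hKcomap : f.ker ≤ A.comap f := fun x hx => by
    have : f x = 0 := hx
    simp [AddSubgroup.mem_comap, this, A.zero_mem]
  rw [defect_eq]
  unfold quotIndex
  rw [← AddSubgroup.relIndex_mul_relIndex _ _ _ (sup_le_sup_right hIK A)
      (sup_le hKcomap hAcomap)]
  exact dvd_mul_left _ _

/-- Pure arithmetic behind the two-out-of-three property. -/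
theorem arith_two_of_three {a0 a1 b0 b1 c0 c1 df dg : ℕ}
    (E0 : b0 * df * dg = a0 * c0) (E1 : b1 * dg * df = a1 * c1)
    (hg0 : dg ∣ a0) (hf1 : df ∣ a1) (hf0 : df ∣ c0) (hg1 : dg ∣ c1) :
    ((a0 ≠ 0 ∧ a1 ≠ 0) ∧ (c0 ≠ 0 ∧ c1 ≠ 0) → (b0 ≠ 0 ∧ b1 ≠ 0)) ∧
    ((a0 ≠ 0 ∧ a1 ≠ 0) ∧ (b0 ≠ 0 ∧ b1 ≠ 0) → (c0 ≠ 0 ∧ c1 ≠ 0)) ∧
    ((b0 ≠ 0 ∧ b1 ≠ 0) ∧ (c0 ≠ 0 ∧ c1 ≠ 0) → (a0 ≠ 0 ∧ a1 ≠ 0)) ∧
    ((a0 ≠ 0 ∧ a1 ≠ 0) → (c0 ≠ 0 ∧ c1 ≠ 0) →
      (b0 : ℚ) / b1 = ((a0 : ℚ) / a1) * ((c0 : ℚ) / c1)) := by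
  refine ⟨?_, ?_, ?_, ?_⟩
  · rintro ⟨⟨ha0, ha1⟩, ⟨hc0, hc1⟩⟩
    constructor
    · intro h
      rw [h] at E0
      simp only [zero_mul] at E0
      exact (mul_ne_zero ha0 hc0) E0.symm
    · intro h
      rw [h] at E1
      simp only [zero_mul] at E1
      exact (mul_ne_zero ha1 hc1) E1.symm
  · rintro ⟨⟨ha0, ha1⟩, ⟨hb0, hb1⟩⟩
    have hdg : dg ≠ 0 := fun h => ha0 (by rw [h] at hg0; exact zero_dvd_iff.mp hg0)
    have hdf : df ≠ 0 := fun h => ha1 (by rw [h] at hf1; exact zero_dvd_iff.mp hf1)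
    constructor
    · intro h
      rw [h, mul_zero] at E0
      exact (mul_ne_zero (mul_ne_zero hb0 hdf) hdg) E0
    · intro h
      rw [h, mul_zero] at E1
      exact (mul_ne_zero (mul_ne_zero hb1 hdg) hdf) E1
  · rintro ⟨⟨hb0, hb1⟩, ⟨hc0, hc1⟩⟩
    have hdf : df ≠ 0 := fun h => hc0 (by rw [h] at hf0; exact zero_dvd_iff.mp hf0)
    have hdg : dg ≠ 0 := fun h => hc1 (by rw [h] at hg1; exact zero_dvd_iff.mp hg1)
    constructor
    · intro h
      rw [h, zero_mul] at E0
      exact (mul_ne_zero (mul_ne_zero hb0 hdf) hdg) E0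
    · intro h
      rw [h, zero_mul] at E1
      exact (mul_ne_zero (mul_ne_zero hb1 hdg) hdf) E1
  · rintro ⟨ha0, ha1⟩ ⟨hc0, hc1⟩
    have hdg : dg ≠ 0 := fun h => ha0 (by rw [h] at hg0; exact zero_dvd_iff.mp hg0)
    have hdf : df ≠ 0 := fun h => ha1 (by rw [h] at hf1; exact zero_dvd_iff.mp hf1)
    have hb1 : b1 ≠ 0 := by
      intro h
      rw [h] at E1
      simp only [zero_mul] at E1
      exact (mul_ne_zero ha1 hc1) E1.symm
    have E0' : (b0 : ℚ) * df * dg = a0 * c0 := by exact_mod_cast E0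
    have E1' : (b1 : ℚ) * dg * df = a1 * c1 := by exact_mod_cast E1
    have ha1' : (a1 : ℚ) ≠ 0 := by exact_mod_cast ha1
    have hc1' : (c1 : ℚ) ≠ 0 := by exact_mod_cast hc1
    have hb1' : (b1 : ℚ) ≠ 0 := by exact_mod_cast hb1
    have hdf' : (df : ℚ) ≠ 0 := by exact_mod_cast hdf
    have hdg' : (dg : ℚ) ≠ 0 := by exact_mod_cast hdg
    rw [div_mul_div_comm, div_eq_div_iff hb1' (mul_ne_zero ha1' hc1')]
    have : (b0 : ℚ) * (a1 * c1) * (df * dg) = (a0 * c0) * b1 * (df * dg) := by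
      rw [← E0', ← E1']; ring
    exact mul_right_cancel₀ (mul_ne_zero hdf' hdg') this

end Stable

section Exact

variable {A C : Type*} [AddCommGroup A] [AddCommGroup C]
variable {fA gA : A →+ A} {fB gB : B →+ B} {fC gC : C →+ C} {i : A →+ B} {p : B →+ C}

theorem subIndex_range (hi : Function.Injective i)
    (hfi : ∀ a, i (fA a) = fB (i a)) (hgi : ∀ a, i (gA a) = gB (i a)) :
    subIndex fB gB i.range = hIndex fA gA := by
  unfold subIndex hIndex
  have e1 : i.range.map gB = gA.range.map i := by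
    rw [AddMonoidHom.map_range, AddMonoidHom.map_range]
    congr 1
    ext a
    simp [hgi]
  have e2 : i.range ⊓ fB.ker = fA.ker.map i := by
    ext x
    constructor
    · rintro ⟨⟨a, rfl⟩, hx⟩
      refine ⟨a, ?_, rfl⟩
      have h0 : fB (i a) = 0 := hx
      rw [← hfi] at h0
      have : i (fA a) = i 0 := by rw [h0, map_zero]
      exact hi this
    · rintro ⟨a, ha, rfl⟩
      refine ⟨⟨a, rfl⟩, ?_⟩
      have h0 : fA a = 0 := ha
      show fB (i a) = 0
      rw [← hfi, h0, map_zero]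
  rw [e1, e2, AddSubgroup.relIndex_map_map_of_injective _ _ hi]

theorem quotIndex_ker (hp : Function.Surjective p)
    (hfp : ∀ b, p (fB b) = fC (p b)) (hgp : ∀ b, p (gB b) = gC (p b)) :
    quotIndex fB gB p.ker = hIndex fC gC := by
  unfold quotIndex hIndex
  have e1 : gB.range ⊔ p.ker = gC.range.comap p := by
    have : gC.range = gB.range.map p := by
      rw [AddMonoidHom.map_range]
      ext c
      constructor
      · rintro ⟨c', rfl⟩
        obtain ⟨b, rfl⟩ := hp c'
        exact ⟨b, by simp [hgp]⟩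
      · rintro ⟨b, rfl⟩
        exact ⟨p b, by simp [hgp]⟩
    rw [this, AddSubgroup.comap_map_eq]
  have e2 : p.ker.comap fB = fC.ker.comap p := by
    ext b
    simp only [AddSubgroup.mem_comap, AddMonoidHom.mem_ker, hfp]
  rw [e1, e2, AddSubgroup.relIndex_comap, AddSubgroup.map_comap_eq_self_of_surjective hp]

/-- **Multiplicativity of the Herbrand quotient** on a short exact sequence
`0 → A → B → C → 0` of groups with compatible pairs of endomorphisms, together with the
two-out-of-three property for finiteness. -/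
theorem herbrand_of_exact (hi : Function.Injective i) (hp : Function.Surjective p)
    (hex : i.range = p.ker)
    (hfgB : ∀ x, fB (gB x) = 0) (hgfB : ∀ x, gB (fB x) = 0)
    (hfi : ∀ a, i (fA a) = fB (i a)) (hgi : ∀ a, i (gA a) = gB (i a))
    (hfp : ∀ b, p (fB b) = fC (p b)) (hgp : ∀ b, p (gB b) = gC (p b)) :
    (IsFin fA gA ∧ IsFin fC gC → IsFin fB gB) ∧
    (IsFin fA gA ∧ IsFin fB gB → IsFin fC gC) ∧
    (IsFin fB gB ∧ IsFin fC gC → IsFin fA gA) ∧
    (IsFin fA gA → IsFin fC gC → herbrand fB gB = herbrand fA gA * herbrand fC gC) := by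
  have hfS : ∀ a ∈ i.range, fB a ∈ i.range := by
    rintro _ ⟨a, rfl⟩
    exact ⟨fA a, hfi a⟩
  have hgS : ∀ a ∈ i.range, gB a ∈ i.range := by
    rintro _ ⟨a, rfl⟩
    exact ⟨gA a, hgi a⟩
  have E0 := hIndex_mul_of_stable (f := fB) (g := gB) (A := i.range) hfgB hfS hgS
  have E1 := hIndex_mul_of_stable (f := gB) (g := fB) (A := i.range) hgfB hgS hfS
  have d1 := defect_dvd_subIndex (f := fB) (g := gB) (A := i.range) hgS hfgB
  have d2 := defect_dvd_subIndex (f := gB) (g := fB) (A := i.range) hfS hgfB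
  have d3 := defect_dvd_quotIndex (f := fB) (g := gB) (A := i.range) hfS hfgB
  have d4 := defect_dvd_quotIndex (f := gB) (g := fB) (A := i.range) hgS hgfB
  rw [subIndex_range hi hfi hgi] at E0 d1
  rw [subIndex_range hi hgi hfi] at E1 d2
  rw [hex, quotIndex_ker hp hfp hgp] at E0 d3
  rw [hex, quotIndex_ker hp hgp hfp] at E1 d4
  rw [← hex] at E0 E1 d3 d4
  exact arith_two_of_three E0 E1 d1 d2 d3 d4

end Exact

section Finite

/-- The Herbrand quotient of a finite group is `1`. -/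
theorem hIndex_eq_of_finite [Finite B] (f g : B →+ B)
    (hfg : ∀ x, f (g x) = 0) (hgf : ∀ x, g (f x) = 0) :
    hIndex f g = hIndex g f ∧ hIndex f g ≠ 0 := by
  have hIK : g.range ≤ f.ker := by
    rintro _ ⟨x, rfl⟩
    exact hfg x
  have hIK' : f.range ≤ g.ker := by
    rintro _ ⟨x, rfl⟩
    exact hgf x
  -- |B| = |ker f| * |im f|
  have c1 : Nat.card f.ker * Nat.card f.range = Nat.card B := by
    rw [← AddSubgroup.index_ker f, mul_comm]
    exact AddSubgroup.index_mul_card f.ker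
  have c2 : Nat.card g.ker * Nat.card g.range = Nat.card B := by
    rw [← AddSubgroup.index_ker g, mul_comm]
    exact AddSubgroup.index_mul_card g.ker
  -- |ker f| = [ker f : im g] * |im g|
  have c3 : hIndex f g * Nat.card g.range = Nat.card f.ker := by
    unfold hIndex
    rw [← AddSubgroup.relIndex_bot_left, ← AddSubgroup.relIndex_bot_left, mul_comm]
    exact AddSubgroup.relIndex_mul_relIndex _ _ _ bot_le hIK
  have c4 : hIndex g f * Nat.card f.range = Nat.card g.ker := by
    unfold hIndex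
    rw [← AddSubgroup.relIndex_bot_left, ← AddSubgroup.relIndex_bot_left, mul_comm]
    exact AddSubgroup.relIndex_mul_relIndex _ _ _ bot_le hIK'
  have hB : Nat.card B ≠ 0 := Nat.card_pos.ne'
  have hfr : Nat.card f.range ≠ 0 := Nat.card_pos.ne'
  have hgr : Nat.card g.range ≠ 0 := Nat.card_pos.ne'
  have hfk : Nat.card f.ker ≠ 0 := Nat.card_pos.ne'
  constructor
  · have : hIndex f g * (Nat.card g.range * Nat.card f.range) =
        hIndex g f * (Nat.card g.range * Nat.card f.range) := by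
      calc hIndex f g * (Nat.card g.range * Nat.card f.range)
          = (hIndex f g * Nat.card g.range) * Nat.card f.range := by ring
        _ = Nat.card B := by rw [c3, c1]
        _ = (hIndex g f * Nat.card f.range) * Nat.card g.range := by rw [c4, c2]
        _ = hIndex g f * (Nat.card g.range * Nat.card f.range) := by ring
    exact Nat.eq_of_mul_eq_mul_right (Nat.pos_of_ne_zero (mul_ne_zero hgr hfr)) this
  · intro h
    rw [h, zero_mul] at c3
    exact hfk c3.symm

theorem herbrand_eq_one_of_finite [Finite B] (f g : B →+ B)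
    (hfg : ∀ x, f (g x) = 0) (hgf : ∀ x, g (f x) = 0) :
    herbrand f g = 1 := by
  obtain ⟨h1, h2⟩ := hIndex_eq_of_finite f g hfg hgf
  unfold herbrand
  rw [← h1]
  exact div_self (by exact_mod_cast h2)

theorem isFin_of_finite [Finite B] (f g : B →+ B)
    (hfg : ∀ x, f (g x) = 0) (hgf : ∀ x, g (f x) = 0) : IsFin f g := by
  obtain ⟨h1, h2⟩ := hIndex_eq_of_finite f g hfg hgf
  exact ⟨h2, h1 ▸ h2⟩

end Finite

end Fermat.Agent.Lib.CFT.Herbrand
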