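import Fermat.Agent.Lib.CFT.HerbrandIso

/-!
# Herbrand quotient: the quotient `q_{0,n}`, group actions, multiplicative version
-/

namespace Fermat.Agent.Lib.CFT.Herbrand

section PowQuot

variable {A B C : Type*} [AddCommGroup A] [AddCommGroup B] [AddCommGroup C]

/-- `q_{0,n}(A) = [A : nA] / |A[n]|`, the Herbrand quotient of the pair `(0, n)`. -/
noncomputable def powQuot (A : Type*) [AddCommGroup A] (n : ℕ) : ℚ :=
  herbrand (0 : A →+ A) (nsmulAddMonoidHom n)

/-- `[A : nA]` and `|A[n]|` are both finite. -/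
def PowFin (A : Type*) [AddCommGroup A] (n : ℕ) : Prop :=
  IsFin (0 : A →+ A) (nsmulAddMonoidHom n)

theorem hIndex_zero_nsmul (n : ℕ) :
    hIndex (0 : A →+ A) (nsmulAddMonoidHom n) = (nsmulAddMonoidHom n : A →+ A).range.index := by
  unfold hIndex
  rw [AddMonoidHom.ker_zero, AddSubgroup.relIndex_top_right]

theorem hIndex_nsmul_zero (n : ℕ) :
    hIndex (nsmulAddMonoidHom n) (0 : A →+ A) = Nat.card (nsmulAddMonoidHom n : A →+ A).ker := by
  unfold hIndex
  rw [AddMonoidHom.range_zero, AddSubgroup.relIndex_bot_left]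

theorem powQuot_eq (n : ℕ) :
    powQuot A n = ((nsmulAddMonoidHom n : A →+ A).range.index : ℚ) /
      (Nat.card (nsmulAddMonoidHom n : A →+ A).ker : ℚ) := by
  unfold powQuot herbrand
  rw [hIndex_zero_nsmul, hIndex_nsmul_zero]

theorem powFin_iff (n : ℕ) :
    PowFin A n ↔ (nsmulAddMonoidHom n : A →+ A).range.index ≠ 0 ∧
      Nat.card (nsmulAddMonoidHom n : A →+ A).ker ≠ 0 := by
  unfold PowFin IsFin
  rw [hIndex_zero_nsmul, hIndex_nsmul_zero]

/-- Multiplicativity of `q_{0,n}` on short exact sequences. -/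
theorem powQuot_of_exact (n : ℕ) {i : A →+ B} {p : B →+ C} (hi : Function.Injective i)
    (hp : Function.Surjective p) (hex : i.range = p.ker) :
    (PowFin A n ∧ PowFin C n → PowFin B n) ∧
    (PowFin A n ∧ PowFin B n → PowFin C n) ∧
    (PowFin B n ∧ PowFin C n → PowFin A n) ∧
    (PowFin A n → PowFin C n → powQuot B n = powQuot A n * powQuot C n) := by
  have key := herbrand_of_exact (fA := (0 : A →+ A)) (gA := nsmulAddMonoidHom n)
    (fB := (0 : B →+ B)) (gB := nsmulAddMonoidHom n) (fC := (0 : C →+ C))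
    (gC := nsmulAddMonoidHom n) hi hp hex (fun x => rfl) (fun x => by simp)
    (fun a => by simp) (fun a => by simp) (fun b => by simp) (fun b => by simp)
  exact key

theorem powQuot_eq_one_of_finite [Finite A] (n : ℕ) : powQuot A n = 1 :=
  herbrand_eq_one_of_finite _ _ (by intro x; simp) (by intro x; simp)

theorem powFin_of_finite [Finite A] (n : ℕ) : PowFin A n :=
  isFin_of_finite _ _ (by intro x; simp) (by intro x; simp)

theorem powQuot_int {n : ℕ} (hn : n ≠ 0) : powQuot ℤ n = n ∧ PowFin ℤ n := by
  have hr : (nsmulAddMonoidHom n : ℤ →+ ℤ).range = AddSubgroup.zmultiples (n : ℤ) := by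
    ext x
    simp only [AddMonoidHom.mem_range, nsmulAddMonoidHom_apply, AddSubgroup.mem_zmultiples_iff]
    constructor
    · rintro ⟨y, rfl⟩
      exact ⟨y, by simp [mul_comm]⟩
    · rintro ⟨k, rfl⟩
      exact ⟨k, by simp [mul_comm]⟩
  have hk : (nsmulAddMonoidHom n : ℤ →+ ℤ).ker = ⊥ := by
    rw [AddSubgroup.eq_bot_iff_forall]
    intro x hx
    have : n • x = 0 := hx
    simpa [hn] using this
  have h0 : (nsmulAddMonoidHom n : ℤ →+ ℤ).range.index = n := by
    rw [hr, Int.index_zmultiples, Int.natAbs_natCast]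
  have h1 : Nat.card (nsmulAddMonoidHom n : ℤ →+ ℤ).ker = 1 := by
    rw [hk]
    simp
  constructor
  · rw [powQuot_eq, h0, h1]; simp
  · rw [powFin_iff, h0, h1]
    exact ⟨hn, one_ne_zero⟩

end PowQuot

section Action

variable (G : Type*) [Group G] [Fintype G] (A : Type*) [AddCommGroup A] [DistribMulAction G A]

/-- The endomorphism `a ↦ s • a - a`. -/
def subOne (s : G) : A →+ A := DistribSMul.toAddMonoidHom A s - AddMonoidHom.id A

/-- The norm endomorphism `a ↦ ∑ x : G, x • a`. -/
def normHom : A →+ A := ∑ x : G, DistribSMul.toAddMonoidHom A x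

variable {G A}

omit [Fintype G] in
@[simp] theorem subOne_apply (s : G) (a : A) : subOne G A s a = s • a - a := rfl

@[simp] theorem normHom_apply (a : A) : normHom G A a = ∑ x : G, x • a := by
  unfold normHom
  rw [AddMonoidHom.finsetSum_apply]
  rfl

theorem smul_normHom (s : G) (a : A) : s • normHom G A a = normHom G A a := by
  rw [normHom_apply, Finset.smul_sum]
  simp_rw [smul_smul]
  exact Fintype.sum_bijective (fun x => s * x) (Group.mulLeft_bijective s) _ _ (fun _ => rfl)

theorem normHom_smul (s : G) (a : A) : normHom G A (s • a) = normHom G A a := by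
  rw [normHom_apply, normHom_apply]
  simp_rw [smul_smul]
  exact Fintype.sum_bijective (fun x => x * s) (Group.mulRight_bijective s) _ _ (fun _ => rfl)

theorem subOne_normHom (s : G) (a : A) : subOne G A s (normHom G A a) = 0 := by
  rw [subOne_apply, smul_normHom, sub_self]

theorem normHom_subOne (s : G) (a : A) : normHom G A (subOne G A s a) = 0 := by
  rw [subOne_apply, map_sub, normHom_smul, sub_self]

variable (G A)

/-- The Herbrand quotient `|Ĥ⁰(G,A)| / |H¹(G,A)|` of a `G`-module `A`, computed with respect to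
the element `s` (a generator of `G` in applications). -/
noncomputable def herbrandCyc (s : G) : ℚ := herbrand (subOne G A s) (normHom G A)

/-- Finiteness of both `Ĥ⁰` and `H¹`. -/
def CycFin (s : G) : Prop := IsFin (subOne G A s) (normHom G A)

variable {G A}

omit [Fintype G] in
/-- The kernel of `s - 1` is the subgroup of invariants when `s` generates `G`. -/
theorem mem_ker_subOne_iff {s : G} (hs : ∀ x, x ∈ Subgroup.zpowers s) (a : A) :
    a ∈ (subOne G A s).ker ↔ ∀ x : G, x • a = a := by
  rw [AddMonoidHom.mem_ker, subOne_apply, sub_eq_zero]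
  constructor
  · intro h x
    obtain ⟨k, rfl⟩ := Subgroup.mem_zpowers_iff.mp (hs x)
    have hinv : s⁻¹ • a = a := by
      conv_lhs => rw [← h]
      rw [smul_smul, inv_mul_cancel, one_smul]
    induction k using Int.induction_on with
    | zero => simp
    | succ n ih => rw [zpow_add_one, mul_smul, h, ih]
    | pred n ih => rw [zpow_sub_one, mul_smul, hinv, ih]
  · intro h
    exact h s

omit [Fintype G] in
/-- The range of `s - 1` contains `x • a - a` for every `x` when `s` generates `G`. -/
theorem smul_sub_mem_range_subOne {s : G} (hs : ∀ x, x ∈ Subgroup.zpowers s) (x : G) (a : A) :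
    x • a - a ∈ (subOne G A s).range := by
  obtain ⟨k, rfl⟩ := Subgroup.mem_zpowers_iff.mp (hs x)
  induction k using Int.induction_on generalizing a with
  | zero => simp
  | succ n ih =>
    have : s ^ ((n : ℤ) + 1) • a - a = (s ^ (n : ℤ) • (s • a) - s • a) + (s • a - a) := by
      rw [zpow_add_one, mul_smul]; abel
    rw [this]
    exact AddSubgroup.add_mem _ (ih (s • a)) ⟨a, rfl⟩
  | pred n ih =>
    have : s ^ (-(n : ℤ) - 1) • a - a =
        (s ^ (-(n : ℤ)) • (s⁻¹ • a) - s⁻¹ • a) - (s • (s⁻¹ • a) - s⁻¹ • a) := by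
      rw [zpow_sub_one, mul_smul, smul_smul s, mul_inv_cancel, one_smul]; abel
    rw [this]
    exact AddSubgroup.sub_mem _ (ih (s⁻¹ • a)) ⟨s⁻¹ • a, rfl⟩

/-- The Herbrand indices do not depend on the chosen generator. -/
theorem hIndex_subOne_eq_of_generators {s t : G} (hs : ∀ x, x ∈ Subgroup.zpowers s)
    (ht : ∀ x, x ∈ Subgroup.zpowers t) :
    hIndex (subOne G A s) (normHom G A) = hIndex (subOne G A t) (normHom G A) ∧
    hIndex (normHom G A) (subOne G A s) = hIndex (normHom G A) (subOne G A t) := by
  have hk : (subOne G A s).ker = (subOne G A t).ker := by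
    ext a
    rw [mem_ker_subOne_iff hs, mem_ker_subOne_iff ht]
  have hr : (subOne G A s).range = (subOne G A t).range := by
    apply le_antisymm
    · rintro _ ⟨a, rfl⟩
      exact smul_sub_mem_range_subOne ht s a
    · rintro _ ⟨a, rfl⟩
      exact smul_sub_mem_range_subOne hs t a
  unfold hIndex
  rw [hk, hr]
  exact ⟨rfl, rfl⟩

theorem herbrandCyc_eq_of_generators {s t : G} (hs : ∀ x, x ∈ Subgroup.zpowers s)
    (ht : ∀ x, x ∈ Subgroup.zpowers t) : herbrandCyc G A s = herbrandCyc G A t := by
  obtain ⟨h0, h1⟩ := hIndex_subOne_eq_of_generators (A := A) hs ht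
  unfold herbrandCyc herbrand
  rw [h0, h1]

/-- For a trivial action, the Herbrand quotient is `q_{0,|G|}`. -/
theorem herbrandCyc_of_trivial (htriv : ∀ (x : G) (a : A), x • a = a) (s : G) :
    herbrandCyc G A s = powQuot A (Fintype.card G) ∧
      (CycFin G A s ↔ PowFin A (Fintype.card G)) := by
  have h1 : subOne G A s = 0 := by
    ext a
    simp [htriv]
  have h2 : normHom G A = nsmulAddMonoidHom (Fintype.card G) := by
    ext a
    simp [htriv]
  unfold herbrandCyc CycFin powQuot PowFin
  rw [h1, h2]
  exact ⟨rfl, Iff.rfl⟩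

section Exact

variable {B C : Type*} [AddCommGroup B] [AddCommGroup C] [DistribMulAction G B]
  [DistribMulAction G C]

/-- Multiplicativity of the Herbrand quotient on a short exact sequence of `G`-modules. -/
theorem herbrandCyc_of_exact (s : G) {i : A →+ B} {p : B →+ C}
    (hi : Function.Injective i) (hp : Function.Surjective p) (hex : i.range = p.ker)
    (hiG : ∀ (x : G) (a : A), i (x • a) = x • i a) (hpG : ∀ (x : G) (b : B), p (x • b) = x • p b) :
    (CycFin G A s ∧ CycFin G C s → CycFin G B s) ∧
    (CycFin G A s ∧ CycFin G B s → CycFin G C s) ∧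
    (CycFin G B s ∧ CycFin G C s → CycFin G A s) ∧
    (CycFin G A s → CycFin G C s →
      herbrandCyc G B s = herbrandCyc G A s * herbrandCyc G C s) := by
  refine herbrand_of_exact hi hp hex (subOne_normHom s) (normHom_subOne s) ?_ ?_ ?_ ?_
  · intro a; simp [hiG]
  · intro a; simp [hiG]
  · intro b; simp [hpG]
  · intro b; simp [hpG]

end Exact

end Action

end Fermat.Agent.Lib.CFT.Herbrand
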