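import Fermat.Agent.Lib.CFT.Herbrand

/-!
# Herbrand quotient: invariance under maps with finite kernel and cokernel
-/

namespace Fermat.Agent.Lib.CFT.Herbrand

variable {A B : Type*} [AddCommGroup A] [AddCommGroup B]

theorem herbrand_eq_zero_of_not_isFin {f g : B →+ B} (h : ¬ IsFin f g) : herbrand f g = 0 := by
  unfold IsFin at h
  unfold herbrand
  by_cases h0 : hIndex f g = 0
  · simp [h0]
  · have : hIndex g f = 0 := by
      by_contra h1
      exact h ⟨h0, h1⟩
    simp [this]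

theorem herbrand_ne_zero_of_isFin {f g : B →+ B} (h : IsFin f g) : herbrand f g ≠ 0 := by
  unfold herbrand
  exact div_ne_zero (by exact_mod_cast h.1) (by exact_mod_cast h.2)

/-- The restriction of an endomorphism to a stable subgroup. -/
def resEnd (f : B →+ B) (S : AddSubgroup B) (hS : ∀ a ∈ S, f a ∈ S) : S →+ S :=
  (f.comp S.subtype).codRestrict S (fun x => hS x x.2)

@[simp] theorem resEnd_coe (f : B →+ B) (S : AddSubgroup B) (hS : ∀ a ∈ S, f a ∈ S) (x : S) :
    (resEnd f S hS x : B) = f x := rfl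

/-- The endomorphism induced on the quotient by a stable subgroup. -/
def quotEnd (f : B →+ B) (S : AddSubgroup B) (hS : ∀ a ∈ S, f a ∈ S) : B ⧸ S →+ B ⧸ S :=
  QuotientAddGroup.map S S f (fun a ha => hS a ha)

@[simp] theorem quotEnd_mk (f : B →+ B) (S : AddSubgroup B) (hS : ∀ a ∈ S, f a ∈ S) (x : B) :
    quotEnd f S hS (QuotientAddGroup.mk' S x) = QuotientAddGroup.mk' S (f x) := rfl

/-- Multiplicativity for a stable subgroup: `q(B) = q(S) q(B/S)` with two-out-of-three. -/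
theorem herbrand_of_stable {f g : B →+ B} (hfg : ∀ x, f (g x) = 0) (hgf : ∀ x, g (f x) = 0)
    (S : AddSubgroup B) (hfS : ∀ a ∈ S, f a ∈ S) (hgS : ∀ a ∈ S, g a ∈ S) :
    (IsFin (resEnd f S hfS) (resEnd g S hgS) ∧ IsFin (quotEnd f S hfS) (quotEnd g S hgS) →
        IsFin f g) ∧
    (IsFin (resEnd f S hfS) (resEnd g S hgS) ∧ IsFin f g →
        IsFin (quotEnd f S hfS) (quotEnd g S hgS)) ∧
    (IsFin f g ∧ IsFin (quotEnd f S hfS) (quotEnd g S hgS) →
        IsFin (resEnd f S hfS) (resEnd g S hgS)) ∧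
    (IsFin (resEnd f S hfS) (resEnd g S hgS) → IsFin (quotEnd f S hfS) (quotEnd g S hgS) →
      herbrand f g = herbrand (resEnd f S hfS) (resEnd g S hgS) *
        herbrand (quotEnd f S hfS) (quotEnd g S hgS)) := by
  refine herbrand_of_exact (i := S.subtype) (p := QuotientAddGroup.mk' S)
    Subtype.val_injective (QuotientAddGroup.mk'_surjective S) ?_ hfg hgf ?_ ?_ ?_ ?_
  · rw [AddSubgroup.range_subtype, QuotientAddGroup.ker_mk']
  · intro a; rfl
  · intro a; rfl
  · intro b; rfl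
  · intro b; rfl

theorem quotEnd_comp_zero {f g : B →+ B} (hfg : ∀ x, f (g x) = 0)
    (S : AddSubgroup B) (hfS : ∀ a ∈ S, f a ∈ S) (hgS : ∀ a ∈ S, g a ∈ S) :
    ∀ x, quotEnd f S hfS (quotEnd g S hgS x) = 0 := by
  intro x
  obtain ⟨b, rfl⟩ := QuotientAddGroup.mk'_surjective S x
  rw [quotEnd_mk, quotEnd_mk, hfg, map_zero]

theorem resEnd_comp_zero {f g : B →+ B} (hfg : ∀ x, f (g x) = 0)
    (S : AddSubgroup B) (hfS : ∀ a ∈ S, f a ∈ S) (hgS : ∀ a ∈ S, g a ∈ S) :
    ∀ x, resEnd f S hfS (resEnd g S hgS x) = 0 := by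
  intro x
  apply Subtype.ext
  simp [hfg]

/-- A stable subgroup of finite index has the same Herbrand quotient. -/
theorem herbrand_resEnd_of_finiteIndex {f g : B →+ B}
    (hfg : ∀ x, f (g x) = 0) (hgf : ∀ x, g (f x) = 0)
    (S : AddSubgroup B) (hfS : ∀ a ∈ S, f a ∈ S) (hgS : ∀ a ∈ S, g a ∈ S) (hS : S.index ≠ 0) :
    (IsFin (resEnd f S hfS) (resEnd g S hgS) ↔ IsFin f g) ∧
      herbrand (resEnd f S hfS) (resEnd g S hgS) = herbrand f g := by
  have : Finite (B ⧸ S) := by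
    have : S.FiniteIndex := ⟨hS⟩
    infer_instance
  obtain ⟨h1, -, h3, h4⟩ := herbrand_of_stable hfg hgf S hfS hgS
  have hq : IsFin (quotEnd f S hfS) (quotEnd g S hgS) :=
    isFin_of_finite _ _ (quotEnd_comp_zero hfg S hfS hgS) (quotEnd_comp_zero hgf S hgS hfS)
  have hq1 : herbrand (quotEnd f S hfS) (quotEnd g S hgS) = 1 :=
    herbrand_eq_one_of_finite _ _ (quotEnd_comp_zero hfg S hfS hgS)
      (quotEnd_comp_zero hgf S hgS hfS)
  have hiff : IsFin (resEnd f S hfS) (resEnd g S hgS) ↔ IsFin f g :=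
    ⟨fun h => h1 ⟨h, hq⟩, fun h => h3 ⟨h, hq⟩⟩
  refine ⟨hiff, ?_⟩
  by_cases hA : IsFin (resEnd f S hfS) (resEnd g S hgS)
  · rw [h4 hA hq, hq1, mul_one]
  · rw [herbrand_eq_zero_of_not_isFin hA, herbrand_eq_zero_of_not_isFin (fun h => hA (hiff.mpr h))]

/-- Dividing by a finite stable subgroup does not change the Herbrand quotient. -/
theorem herbrand_quotEnd_of_finite {f g : B →+ B}
    (hfg : ∀ x, f (g x) = 0) (hgf : ∀ x, g (f x) = 0)
    (S : AddSubgroup B) (hfS : ∀ a ∈ S, f a ∈ S) (hgS : ∀ a ∈ S, g a ∈ S) [Finite S] :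
    (IsFin (quotEnd f S hfS) (quotEnd g S hgS) ↔ IsFin f g) ∧
      herbrand (quotEnd f S hfS) (quotEnd g S hgS) = herbrand f g := by
  obtain ⟨h1, h2, -, h4⟩ := herbrand_of_stable hfg hgf S hfS hgS
  have hq : IsFin (resEnd f S hfS) (resEnd g S hgS) :=
    isFin_of_finite _ _ (resEnd_comp_zero hfg S hfS hgS) (resEnd_comp_zero hgf S hgS hfS)
  have hq1 : herbrand (resEnd f S hfS) (resEnd g S hgS) = 1 :=
    herbrand_eq_one_of_finite _ _ (resEnd_comp_zero hfg S hfS hgS)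
      (resEnd_comp_zero hgf S hgS hfS)
  have hiff : IsFin (quotEnd f S hfS) (quotEnd g S hgS) ↔ IsFin f g :=
    ⟨fun h => h1 ⟨hq, h⟩, fun h => h2 ⟨hq, h⟩⟩
  refine ⟨hiff, ?_⟩
  by_cases hA : IsFin (quotEnd f S hfS) (quotEnd g S hgS)
  · rw [h4 hq hA, hq1, one_mul]
  · rw [herbrand_eq_zero_of_not_isFin hA, herbrand_eq_zero_of_not_isFin (fun h => hA (hiff.mpr h))]

/-- Transport of `hIndex` along an isomorphism. -/
theorem hIndex_congr {fA gA : A →+ A} {fB gB : B →+ B} (e : A ≃+ B)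
    (hf : ∀ a, e (fA a) = fB (e a)) (hg : ∀ a, e (gA a) = gB (e a)) :
    hIndex fA gA = hIndex fB gB := by
  unfold hIndex
  have e1 : gB.range = gA.range.map e.toAddMonoidHom := by
    rw [AddMonoidHom.map_range]
    ext b
    constructor
    · rintro ⟨b', rfl⟩
      exact ⟨e.symm b', by simp [hg]⟩
    · rintro ⟨a, rfl⟩
      exact ⟨e a, by simp [hg]⟩
  have e2 : fB.ker = fA.ker.map e.toAddMonoidHom := by
    ext b
    constructor
    · intro hb
      refine ⟨e.symm b, ?_, by simp⟩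
      have hb' : fB b = 0 := hb
      show fA (e.symm b) = 0
      apply e.injective
      rw [hf, map_zero]
      simpa using hb'
    · rintro ⟨a, ha, rfl⟩
      have ha' : fA a = 0 := ha
      show fB (e a) = 0
      rw [← hf, ha', map_zero]
  rw [e1, e2, AddSubgroup.relIndex_map_map_of_injective _ _ e.injective]

theorem herbrand_congr {fA gA : A →+ A} {fB gB : B →+ B} (e : A ≃+ B)
    (hf : ∀ a, e (fA a) = fB (e a)) (hg : ∀ a, e (gA a) = gB (e a)) :
    herbrand fA gA = herbrand fB gB := by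
  unfold herbrand
  rw [hIndex_congr e hf hg, hIndex_congr e hg hf]

theorem isFin_congr {fA gA : A →+ A} {fB gB : B →+ B} (e : A ≃+ B)
    (hf : ∀ a, e (fA a) = fB (e a)) (hg : ∀ a, e (gA a) = gB (e a)) :
    IsFin fA gA ↔ IsFin fB gB := by
  unfold IsFin
  rw [hIndex_congr e hf hg, hIndex_congr e hg hf]

/-- A compatible homomorphism with finite kernel and finite cokernel preserves the
Herbrand quotient (and its being defined). -/
theorem herbrand_eq_of_finite_ker_coker {fA gA : A →+ A} {fB gB : B →+ B} (φ : A →+ B)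
    (hfgA : ∀ x, fA (gA x) = 0) (hgfA : ∀ x, gA (fA x) = 0)
    (hfgB : ∀ x, fB (gB x) = 0) (hgfB : ∀ x, gB (fB x) = 0)
    (hf : ∀ a, φ (fA a) = fB (φ a)) (hg : ∀ a, φ (gA a) = gB (φ a))
    [Finite φ.ker] (hcoker : φ.range.index ≠ 0) :
    (IsFin fA gA ↔ IsFin fB gB) ∧ herbrand fA gA = herbrand fB gB := by
  -- the kernel is stable
  have hfK : ∀ a ∈ φ.ker, fA a ∈ φ.ker := by
    intro a ha
    have ha' : φ a = 0 := ha
    show φ (fA a) = 0
    rw [hf, ha', map_zero]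
  have hgK : ∀ a ∈ φ.ker, gA a ∈ φ.ker := by
    intro a ha
    have ha' : φ a = 0 := ha
    show φ (gA a) = 0
    rw [hg, ha', map_zero]
  -- the range is stable
  have hfR : ∀ b ∈ φ.range, fB b ∈ φ.range := by
    rintro _ ⟨a, rfl⟩
    exact ⟨fA a, hf a⟩
  have hgR : ∀ b ∈ φ.range, gB b ∈ φ.range := by
    rintro _ ⟨a, rfl⟩
    exact ⟨gA a, hg a⟩
  obtain ⟨k1, k2⟩ := herbrand_quotEnd_of_finite hfgA hgfA φ.ker hfK hgK
  obtain ⟨r1, r2⟩ := herbrand_resEnd_of_finiteIndex hfgB hgfB φ.range hfR hgR hcoker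
  -- first isomorphism theorem
  let e : A ⧸ φ.ker ≃+ φ.range := QuotientAddGroup.quotientKerEquivRange φ
  have he : ∀ a, (e (QuotientAddGroup.mk' φ.ker a) : B) = φ a := fun a => rfl
  have ef : ∀ x, e (quotEnd fA φ.ker hfK x) = resEnd fB φ.range hfR (e x) := by
    intro x
    obtain ⟨a, rfl⟩ := QuotientAddGroup.mk'_surjective φ.ker x
    apply Subtype.ext
    rw [quotEnd_mk, he, resEnd_coe, he, hf]
  have eg : ∀ x, e (quotEnd gA φ.ker hgK x) = resEnd gB φ.range hgR (e x) := by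
    intro x
    obtain ⟨a, rfl⟩ := QuotientAddGroup.mk'_surjective φ.ker x
    apply Subtype.ext
    rw [quotEnd_mk, he, resEnd_coe, he, hg]
  constructor
  · rw [← k1, ← r1]
    exact isFin_congr e ef eg
  · rw [← k2, ← r2]
    exact herbrand_congr e ef eg

end Fermat.Agent.Lib.CFT.Herbrand
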