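import Fermat.Agent.Lib.CFT.HerbrandRep

/-!
# Herbrand quotient of products

Index computations in (possibly infinite) products of groups where almost all factors
contribute trivially.  This is the shape of the computation `h(J_{L,S}) = ∏_{v ∈ S} n_v`.
-/

namespace Fermat.Agent.Lib.CFT.Herbrand

open scoped Classical in
/-- Relative index in a product: if `[K i : H i] = 1` outside a finite set `S` of indices then
`[∏ K i : ∏ H i] = ∏_{i ∈ S} [K i : H i]`. -/
theorem relIndex_pi {ι : Type*} {A : ι → Type*} [∀ i, AddCommGroup (A i)]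
    (H K : ∀ i, AddSubgroup (A i)) (S : Finset ι)
    (hS : ∀ i, i ∉ S → K i ≤ H i) :
    (AddSubgroup.pi Set.univ H).relIndex (AddSubgroup.pi Set.univ K) =
      ∏ i ∈ S, (H i).relIndex (K i) := by
  -- the map to the finite product of quotients
  let Q : S → Type _ := fun i => K i ⧸ (H i).addSubgroupOf (K i)
  let φ : (AddSubgroup.pi Set.univ K) →+ (∀ i : S, Q i) :=
    AddMonoidHom.mk' (fun x i => QuotientAddGroup.mk ⟨x.1 i, x.2 i (Set.mem_univ _)⟩)
      (fun x y => by
        funext i
        rfl)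
  have hφ : Function.Surjective φ := by
    intro q
    choose r hr using fun i : S => QuotientAddGroup.mk_surjective (q i)
    let x : ∀ i, A i := fun i => if h : i ∈ S then (r ⟨i, h⟩ : A i) else 0
    have hx : x ∈ AddSubgroup.pi Set.univ K := by
      intro i _
      by_cases h : i ∈ S
      · simp only [x, dif_pos h]
        exact (r ⟨i, h⟩).2
      · simp only [x, dif_neg h]
        exact (K i).zero_mem
    refine ⟨⟨x, hx⟩, ?_⟩
    funext i
    rw [← hr i]
    show QuotientAddGroup.mk _ = QuotientAddGroup.mk _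
    congr 1
    apply Subtype.ext
    show x i = r i
    simp only [x, dif_pos i.2]
  have hker : ∀ x : AddSubgroup.pi Set.univ K,
      φ x = 0 ↔ (x : ∀ i, A i) ∈ AddSubgroup.pi Set.univ H := by
    intro x
    constructor
    · intro hx i _
      by_cases h : i ∈ S
      · have := congrFun hx ⟨i, h⟩
        have h0 : (QuotientAddGroup.mk ⟨x.1 i, x.2 i (Set.mem_univ _)⟩ :
            K i ⧸ (H i).addSubgroupOf (K i)) = 0 := this
        rw [QuotientAddGroup.eq_zero_iff] at h0
        exact h0
      · exact hS i h (x.2 i (Set.mem_univ _))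
    · intro hx
      funext i
      show (QuotientAddGroup.mk ⟨x.1 i, x.2 i (Set.mem_univ _)⟩ :
            K i ⧸ (H i).addSubgroupOf (K i)) = 0
      rw [QuotientAddGroup.eq_zero_iff]
      exact hx i (Set.mem_univ _)
  rw [← card_eq_relIndex_of_surjective _ _ φ hφ hker, Nat.card_pi,
    ← Finset.prod_coe_sort S (fun i => (H i).relIndex (K i))]
  exact Finset.prod_congr rfl (fun i _ => rfl)

section PiHom

variable {ι : Type*} {A : ι → Type*} [∀ i, AddCommGroup (A i)]

/-- The componentwise endomorphism of a product. -/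
def piEnd (f : ∀ i, A i →+ A i) : (∀ i, A i) →+ (∀ i, A i) :=
  AddMonoidHom.mk' (fun x i => f i (x i)) (fun x y => by
    funext i
    simp)

@[simp] theorem piEnd_apply (f : ∀ i, A i →+ A i) (x : ∀ i, A i) (i : ι) :
    piEnd f x i = f i (x i) := rfl

/-- The subgroup-level index of a product of stable subgroups, when almost all factors are
trivial: `subIndex` of `∏ V i` is the finite product of the `subIndex` of the `V i`, `i ∈ S`. -/
theorem subIndex_pi (f g : ∀ i, A i →+ A i) (V : ∀ i, AddSubgroup (A i)) (S : Finset ι)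
    (hS : ∀ i, i ∉ S → V i ⊓ (f i).ker ≤ (V i).map (g i)) :
    subIndex (piEnd f) (piEnd g) (AddSubgroup.pi Set.univ V) =
      ∏ i ∈ S, subIndex (f i) (g i) (V i) := by
  unfold subIndex
  have e1 : (AddSubgroup.pi Set.univ V).map (piEnd g) =
      AddSubgroup.pi Set.univ (fun i => (V i).map (g i)) := by
    ext x
    constructor
    · rintro ⟨y, hy, rfl⟩ i _
      exact ⟨y i, hy i (Set.mem_univ _), rfl⟩
    · intro hx
      choose y hy using fun i => hx i (Set.mem_univ _)
      exact ⟨y, fun i _ => (hy i).1, funext fun i => (hy i).2⟩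
  have e2 : AddSubgroup.pi Set.univ V ⊓ (piEnd f).ker =
      AddSubgroup.pi Set.univ (fun i => V i ⊓ (f i).ker) := by
    ext x
    constructor
    · rintro ⟨hx, hk⟩ i _
      exact ⟨hx i (Set.mem_univ _), congrFun hk i⟩
    · intro hx
      exact ⟨fun i _ => (hx i (Set.mem_univ _)).1, funext fun i => (hx i (Set.mem_univ _)).2⟩
  rw [e1, e2]
  exact relIndex_pi _ _ S hS

end PiHom

section SubIndex

variable {B : Type*} [AddCommGroup B]

/-- `subIndex` of a stable subgroup is the `hIndex` of the restricted endomorphisms. -/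
theorem subIndex_eq_hIndex_resEnd (f g : B →+ B) (S : AddSubgroup B)
    (hfS : ∀ a ∈ S, f a ∈ S) (hgS : ∀ a ∈ S, g a ∈ S) :
    subIndex f g S = hIndex (resEnd f S hfS) (resEnd g S hgS) := by
  have := subIndex_range (fA := resEnd f S hfS) (gA := resEnd g S hgS) (fB := f) (gB := g)
    (i := S.subtype) Subtype.val_injective (fun a => rfl) (fun a => rfl)
  rw [AddSubgroup.range_subtype] at this
  exact this

end SubIndex

section PiHerbrand

variable {ι : Type*} {A : ι → Type*} [∀ i, AddCommGroup (A i)]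
  (f g : ∀ i, A i →+ A i) (V : ∀ i, AddSubgroup (A i))
  (hfV : ∀ i, ∀ a ∈ V i, f i a ∈ V i) (hgV : ∀ i, ∀ a ∈ V i, g i a ∈ V i)

include hfV in
theorem piEnd_mem_pi : ∀ x ∈ AddSubgroup.pi Set.univ V, piEnd f x ∈ AddSubgroup.pi Set.univ V :=
  fun x hx i hi => hfV i (x i) (hx i hi)

/-- Herbrand indices of a (restricted) product `∏ V i` where the factors outside the finite set
`S` have trivial cohomology. -/
theorem hIndex_pi (S : Finset ι)
    (hS : ∀ i, i ∉ S → V i ⊓ (f i).ker ≤ (V i).map (g i)) :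
    hIndex (resEnd (piEnd f) (AddSubgroup.pi Set.univ V) (piEnd_mem_pi f V hfV))
      (resEnd (piEnd g) (AddSubgroup.pi Set.univ V) (piEnd_mem_pi g V hgV)) =
      ∏ i ∈ S, hIndex (resEnd (f i) (V i) (hfV i)) (resEnd (g i) (V i) (hgV i)) := by
  rw [← subIndex_eq_hIndex_resEnd, subIndex_pi f g V S hS]
  exact Finset.prod_congr rfl (fun i _ => subIndex_eq_hIndex_resEnd _ _ _ _ _)

/-- Herbrand quotient of a (restricted) product `∏ V i` where the factors outside the finite set
`S` have trivial cohomology: it is the product of the Herbrand quotients of the factors in `S`. -/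
theorem herbrand_pi (S : Finset ι)
    (hS0 : ∀ i, i ∉ S → V i ⊓ (f i).ker ≤ (V i).map (g i))
    (hS1 : ∀ i, i ∉ S → V i ⊓ (g i).ker ≤ (V i).map (f i)) :
    herbrand (resEnd (piEnd f) (AddSubgroup.pi Set.univ V) (piEnd_mem_pi f V hfV))
      (resEnd (piEnd g) (AddSubgroup.pi Set.univ V) (piEnd_mem_pi g V hgV)) =
      ∏ i ∈ S, herbrand (resEnd (f i) (V i) (hfV i)) (resEnd (g i) (V i) (hgV i)) := by
  unfold herbrand
  rw [hIndex_pi f g V hfV hgV S hS0, hIndex_pi g f V hgV hfV S hS1]
  push_cast
  rw [Finset.prod_div_distrib]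

theorem isFin_pi (S : Finset ι)
    (hS0 : ∀ i, i ∉ S → V i ⊓ (f i).ker ≤ (V i).map (g i))
    (hS1 : ∀ i, i ∉ S → V i ⊓ (g i).ker ≤ (V i).map (f i))
    (hfin : ∀ i ∈ S, IsFin (resEnd (f i) (V i) (hfV i)) (resEnd (g i) (V i) (hgV i))) :
    IsFin (resEnd (piEnd f) (AddSubgroup.pi Set.univ V) (piEnd_mem_pi f V hfV))
      (resEnd (piEnd g) (AddSubgroup.pi Set.univ V) (piEnd_mem_pi g V hgV)) := by
  unfold IsFin
  rw [hIndex_pi f g V hfV hgV S hS0, hIndex_pi g f V hgV hfV S hS1]
  exact ⟨Finset.prod_ne_zero_iff.mpr fun i hi => (hfin i hi).1,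
    Finset.prod_ne_zero_iff.mpr fun i hi => (hfin i hi).2⟩

end PiHerbrand

end Fermat.Agent.Lib.CFT.Herbrand
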